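import Mathlib

/-!
# Orders with small or half odd totient

If `4 ∤ φ(n)` then `n` is `1, 2, 4` or `p ^ k, 2 p ^ k` with `p ≡ 3 (mod 4)`; if moreover
`φ(n) ∣ 2 l` for a prime `l ≥ 5` then `n ≤ 6` or `n = p, 2 p` with `p = 2 l + 1`.
-/

set_option autoImplicit false

namespace FA.CMDivisibility

/-- The integers whose totient is not divisible by four. -/
theorem eq_of_four_not_dvd {n : ℕ} (hn : n ≠ 0) (h : ¬ 4 ∣ n.totient) :
    n = 1 ∨ n = 2 ∨ n = 4 ∨
      ∃ p k : ℕ, p.Prime ∧ p % 4 = 3 ∧ 1 ≤ k ∧ (n = p ^ k ∨ n = 2 * p ^ k) := by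
  obtain ⟨a, m, hm2, rfl⟩ := Nat.exists_eq_pow_mul_and_not_dvd hn 2 (by norm_num)
  have hcop : (2 ^ a).Coprime m :=
    Nat.Coprime.pow_left _ ((Nat.Prime.coprime_iff_not_dvd Nat.prime_two).2 hm2)
  rw [Nat.totient_mul hcop] at h
  have hm0 : m ≠ 0 := fun e => hm2 (e ▸ dvd_zero 2)
  have ha : a ≤ 2 := by
    by_contra hlt
    obtain ⟨b, rfl⟩ : ∃ b, a = b + 3 := ⟨a - 3, by omega⟩
    exact h (dvd_mul_of_dvd_left ⟨2 ^ b, by
      rw [Nat.totient_prime_pow_succ Nat.prime_two]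
      ring⟩ _)
  rcases eq_or_ne m 1 with rfl | hm1
  · interval_cases a <;> simp
  obtain ⟨p, hp, hpm⟩ := Nat.exists_prime_and_dvd hm1
  obtain ⟨k, r, hr, rfl⟩ := Nat.exists_eq_pow_mul_and_not_dvd hm0 p hp.ne_one
  have hk : 1 ≤ k := by
    rcases Nat.eq_zero_or_pos k with rfl | hk
    · exact absurd (by simpa using hpm) hr
    · exact hk
  have hp2 : p ≠ 2 := fun e => hm2 (e ▸ dvd_mul_of_dvd_left (dvd_pow_self p (by omega)) r)
  have hp3 : 3 ≤ p := by have := hp.two_le; omega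
  have hev : ∀ x : ℕ, 2 < x → 2 ∣ x.totient := fun x hx => (Nat.totient_even hx).two_dvd
  rw [Nat.totient_mul (Nat.Coprime.pow_left _ ((hp.coprime_iff_not_dvd).2 hr))] at h
  have hpk : 2 < p ^ k := lt_of_lt_of_le (by omega) (Nat.le_self_pow (by omega) p)
  have hr1 : r = 1 := by
    by_contra hne
    have hr0 : r ≠ 0 := fun e => hr (e ▸ dvd_zero p)
    have hr2 : r ≠ 2 := fun e => hm2 (dvd_mul_of_dvd_right (dvd_of_eq e.symm) _)
    exact h (dvd_mul_of_dvd_right (mul_dvd_mul (hev _ hpk) (hev r (by omega))) _)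
  subst hr1
  rw [Nat.totient_one, mul_one] at h
  rw [mul_one]
  have ha' : a ≤ 1 := by
    by_contra hlt
    obtain rfl : a = 2 := by omega
    exact h (mul_dvd_mul (show 2 ∣ (2 ^ 2).totient by decide) (hev _ hpk))
  refine Or.inr (Or.inr (Or.inr ⟨p, k, hp, ?_, hk, ?_⟩))
  · by_contra hne
    obtain ⟨j, rfl⟩ : ∃ j, k = j + 1 := ⟨k - 1, by omega⟩
    have hodd : p % 2 = 1 := Nat.odd_iff.1 (hp.odd_of_ne_two hp2)
    refine h (dvd_mul_of_dvd_right ?_ _)
    rw [Nat.totient_prime_pow_succ hp]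
    exact dvd_mul_of_dvd_right (by omega : 4 ∣ p - 1) _
  · interval_cases a <;> simp

/-- The integers whose totient divides twice a prime at least five. -/
theorem eq_of_dvd_two_mul_prime {n l : ℕ} (hn : n ≠ 0) (hl : l.Prime) (hl5 : 5 ≤ l)
    (h : n.totient ∣ 2 * l) :
    n ∈ ({1, 2, 3, 4, 6} : Finset ℕ) ∨
      (2 * l + 1).Prime ∧ (n = 2 * l + 1 ∨ n = 2 * (2 * l + 1)) := by
  have h4 : ¬ 4 ∣ n.totient := fun h' => by
    obtain ⟨c, hc⟩ := h'.trans h
    have : 2 ∣ l := ⟨c, by omega⟩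
    have := (Nat.prime_dvd_prime_iff_eq Nat.prime_two hl).1 this
    omega
  rcases eq_of_four_not_dvd hn h4 with rfl | rfl | rfl | ⟨p, k, hp, hp4, hk, hpk⟩
  · exact Or.inl (by simp)
  · exact Or.inl (by simp)
  · exact Or.inl (by simp)
  obtain ⟨j, rfl⟩ : ∃ j, k = j + 1 := ⟨k - 1, by omega⟩
  have htot : n.totient = p ^ j * (p - 1) := by
    rcases hpk with rfl | rfl
    · exact Nat.totient_prime_pow_succ hp j
    · have hp2 : p ≠ 2 := by omega
      rw [Nat.totient_mul (Nat.Coprime.pow_right _ ((Nat.coprime_primes Nat.prime_two hp).2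
        hp2.symm)), Nat.totient_two, one_mul, Nat.totient_prime_pow_succ hp j]
  obtain ⟨x, hx⟩ : 2 ∣ p - 1 := by omega
  rw [htot, hx, mul_left_comm] at h
  have hx' : p ^ j * x ∣ l := Nat.dvd_of_mul_dvd_mul_left two_pos h
  rcases Nat.eq_zero_or_pos j with rfl | hj
  · rw [pow_zero, one_mul] at hx'
    rw [zero_add, pow_one] at hpk
    rcases hl.eq_one_or_self_of_dvd x hx' with rfl | rfl
    · obtain rfl : p = 3 := by omega
      rcases hpk with rfl | rfl <;> exact Or.inl (by simp)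
    · have hp' : p = 2 * x + 1 := by omega
      exact Or.inr ⟨hp' ▸ hp, hp' ▸ hpk⟩
  · exfalso
    have hpl : p = l := (Nat.prime_dvd_prime_iff_eq hp hl).1
      ((dvd_mul_of_dvd_left (dvd_pow_self p (by omega)) x).trans hx')
    have h1 := Nat.le_of_dvd hl.pos hx'
    have h2 : p ≤ p ^ j := Nat.le_self_pow (by omega) p
    have hx2 : 2 ≤ x := by omega
    have := Nat.mul_le_mul h2 hx2
    omega

end FA.CMDivisibility
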