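import Fermat.Agent.CMClassFactor.Main

/-!
# The divisibility

`φ(n) = 2 [(ℤ/n)ˣ : ± 1]` for `n ≥ 3` and `[F (√d) : ℚ]` divides `2 [F : ℚ]`.
-/

set_option autoImplicit false
set_option linter.style.haveILetI false
set_option linter.unusedSectionVars false

noncomputable section

open Module
open FA.CMRayClass (pmOne)
open scoped Classical

local notation "Qb" => AlgebraicClosure ℚ

namespace FA.CMDivisibility

/-- The index of the signs. -/
theorem two_mul_index_pmOne {n : ℕ} (hn : 3 ≤ n) :
    2 * (pmOne (ZMod n)).index = n.totient := by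
  haveI : NeZero n := ⟨by omega⟩
  haveI : Fact (2 < n) := ⟨hn⟩
  have hne : (1 : (ZMod n)ˣ) ≠ -1 := fun e => ZMod.neg_one_ne_one (n := n) (by
    have := congrArg Units.val e
    simpa using this.symm)
  have hset : (pmOne (ZMod n) : Set (ZMod n)ˣ) = {1, -1} := by
    ext z
    exact Iff.rfl
  have hcard : Nat.card (pmOne (ZMod n)) = 2 := by
    rw [← SetLike.coe_sort_coe, Nat.card_coe_set_eq, hset, Set.ncard_pair hne]
  rw [← hcard, Subgroup.card_mul_index, Nat.card_eq_fintype_card, ZMod.card_units_eq_totient]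

/-- The degree of the compositum with a quadratic field divides twice the degree. -/
theorem finrank_sup_dvd (F : IntermediateField ℚ Qb) [FiniteDimensional ℚ F] {d : ℤ} (hd0 : d < 0)
    {s : Qb} (hs : s ^ 2 = (d : Qb)) :
    finrank ℚ (F ⊔ IntermediateField.adjoin ℚ {s} : IntermediateField ℚ Qb) ∣ 2 * finrank ℚ F := by
  haveI : FiniteDimensional ℚ (IntermediateField.adjoin ℚ {s}) :=
    IntermediateField.adjoin.finiteDimensional (Algebra.IsIntegral.isIntegral s)
  haveI : FiniteDimensional ℚ (F ⊔ IntermediateField.adjoin ℚ {s} : IntermediateField ℚ Qb) :=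
    IntermediateField.finiteDimensional_sup _ _
  obtain ⟨c, hc⟩ := IntermediateField.finrank_dvd_of_le_right
    (le_sup_left : F ≤ F ⊔ IntermediateField.adjoin ℚ {s})
  have h := IntermediateField.finrank_sup_le F (IntermediateField.adjoin ℚ {s})
  rw [FA.Jugendtraum.finrank_adjoin_sqrt hd0 hs, hc] at h
  have hc2 : c ≤ 2 := Nat.le_of_mul_le_mul_left h Module.finrank_pos
  rw [hc]
  rcases (show c = 0 ∨ c = 1 ∨ c = 2 by omega) with rfl | rfl | rfl
  · exact absurd hc (by
      have : 0 < finrank ℚ (F ⊔ IntermediateField.adjoin ℚ {s} : IntermediateField ℚ Qb) :=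
        Module.finrank_pos
      omega)
  · exact ⟨2, by ring⟩
  · exact ⟨1, by ring⟩

end FA.CMDivisibility

end
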